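/-
GATE-R (S17, Mordell–Weil for `J₀(N)`) / node (W) weak Mordell–Weil, leaf S17-WMW-KUMMER-ABS
(helper44).  **Abstract Kummer bookkeeping, Mathlib only, in function-cocycle form (no `H¹` type).**

`G` a group acting on an abelian group `B` by additive automorphisms, `A := B^G`
(`FixedPoints.addSubgroup G B`), `n : ℕ`.

* `kummer_sub_mem_nsmul`: **Kummer injectivity** — if `n • b, n • b' ∈ A` and the cocycles
  `σ ↦ σ b - b`, `σ ↦ σ b' - b'` are cohomologous by an `n`-torsion element, then
  `n • b - n • b' ∈ n • A`;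
* `divSub n` : the subgroup `A ∩ nB` of `A`;  `range_nsmul_le_divSub`;
* `finite_quotient_divSub`: if the Kummer cocycles of all `b` with `n • b ∈ A` are, up to
  `n`-torsion coboundaries, in a FINITE set `T` of functions `G → B` (e.g. representatives of the
  finitely many classes unramified outside `S`), then `(A ∩ nB) / nA` is finite (`≤ #T`);
* **`finiteIndex_range_nsmul`**: if moreover a subgroup `A₁ ≤ A` of finite index consists of
  `n`-divisible elements of `B` (e.g. `A₁ = A ∩ ker(red_ℓ)` for one good prime `ℓ ∤ n`), then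
  `n • A` has finite index in `A` — this is the hypothesis `H₁` of Mathlib's
  `AddCommGroup.fg_of_descent`, verbatim for `A = ↥(FixedPoints.addSubgroup G B)` (the group of the
  frozen S17 with `B = JZero N`).
-/
import Mathlib

set_option autoImplicit false

namespace Fermat.Agent.GR.WeakMW.KummerAbs

variable {G : Type*} [Group G] {B : Type*} [AddCommGroup B] [DistribMulAction G B]

/-- **Kummer injectivity**: `n b, n b' ∈ B^G` with cohomologous Kummer cocycles (by an `n`-torsion
element `u`) differ by an element of `n • B^G`. -/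
theorem kummer_sub_mem_nsmul (n : ℕ) {b b' u : B} (hu : n • u = 0)
    (h : ∀ σ : G, σ • b - b = (σ • b' - b') + (σ • u - u)) :
    ∃ a ∈ FixedPoints.addSubgroup G B, n • b - n • b' = n • a := by
  refine ⟨b - b' - u, ?_, ?_⟩
  · intro σ
    have h1 := h σ
    have e : σ • (b - b' - u) = σ • b - σ • b' - σ • u := by
      rw [smul_sub, smul_sub]
    rw [e]
    have h2 : σ • b = b + ((σ • b' - b') + (σ • u - u)) := by
      rw [← h1]
      abel
    rw [h2]
    abel
  · rw [smul_sub, smul_sub, hu, sub_zero]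

variable (G B)

/-- the subgroup `A ∩ nB` of `A = B^G`. -/
def divSub (n : ℕ) : AddSubgroup ↥(FixedPoints.addSubgroup G B) where
  carrier := {a | ∃ b : B, n • b = (a : B)}
  zero_mem' := ⟨0, by simp⟩
  add_mem' := by
    rintro a a' ⟨b, hb⟩ ⟨b', hb'⟩
    exact ⟨b + b', by rw [smul_add, hb, hb', AddSubgroup.coe_add]⟩
  neg_mem' := by
    rintro a ⟨b, hb⟩
    exact ⟨-b, by rw [smul_neg, hb, AddSubgroup.coe_neg]⟩

variable {G B}

theorem mem_divSub {n : ℕ} {a : ↥(FixedPoints.addSubgroup G B)} :
    a ∈ divSub G B n ↔ ∃ b : B, n • b = (a : B) := Iff.rfl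

/-- `n • A ≤ A ∩ nB`. -/
theorem range_nsmul_le_divSub (n : ℕ) :
    (nsmulAddMonoidHom (α := ↥(FixedPoints.addSubgroup G B)) n).range ≤ divSub G B n := by
  rintro _ ⟨a, rfl⟩
  exact ⟨(a : B), by simp⟩

/-- **`(A ∩ nB) / nA` is finite** as soon as the Kummer cocycles fall, up to `n`-torsion
coboundaries, into a finite set `T` of functions. -/
theorem finite_quotient_divSub (n : ℕ) (T : Set (G → B)) (hT : T.Finite)
    (hkum : ∀ b : B, n • b ∈ FixedPoints.addSubgroup G B →
      ∃ t ∈ T, ∃ u : B, n • u = 0 ∧ ∀ σ : G, σ • b - b = t σ + (σ • u - u)) :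
    Finite (↥(divSub G B n) ⧸
      ((nsmulAddMonoidHom (α := ↥(FixedPoints.addSubgroup G B)) n).range.addSubgroupOf
        (divSub G B n))) := by
  classical
  have hTfin : Finite ↥T := hT.to_subtype
  -- choose a root and a representative cocycle for every element of `A ∩ nB`
  have hroot : ∀ c : ↥(divSub G B n), ∃ b : B, n • b = ((c : ↥(FixedPoints.addSubgroup G B)) : B) :=
    fun c => c.2
  choose root hrootE using hroot
  have hdata : ∀ c : ↥(divSub G B n), ∃ t ∈ T, ∃ u : B, n • u = 0 ∧
      ∀ σ : G, σ • root c - root c = t σ + (σ • u - u) := by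
    intro c
    refine hkum (root c) ?_
    rw [hrootE c]
    exact (c : ↥(FixedPoints.addSubgroup G B)).2
  choose tOf htT uOf huE hcoc using hdata
  let φ : (↥(divSub G B n) ⧸
      ((nsmulAddMonoidHom (α := ↥(FixedPoints.addSubgroup G B)) n).range.addSubgroupOf
        (divSub G B n))) → ↥T := fun q => ⟨tOf q.out, htT q.out⟩
  refine Finite.of_injective φ ?_
  intro q q' hqq'
  have ht : tOf q.out = tOf q'.out := congrArg Subtype.val hqq'
  -- the two roots have cohomologous cocycles
  have hu : n • (uOf q.out - uOf q'.out) = 0 := by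
    rw [smul_sub, huE, huE, sub_zero]
  have hc : ∀ σ : G, σ • root q.out - root q.out =
      (σ • root q'.out - root q'.out) + (σ • (uOf q.out - uOf q'.out) - (uOf q.out - uOf q'.out)) := by
    intro σ
    rw [hcoc q.out σ, hcoc q'.out σ, ht, smul_sub]
    abel
  obtain ⟨a, ha, hdiff⟩ := kummer_sub_mem_nsmul n hu hc
  rw [hrootE, hrootE] at hdiff
  -- hence the two representatives agree modulo `n • A`
  rw [← QuotientAddGroup.out_eq' q, ← QuotientAddGroup.out_eq' q']
  rw [QuotientAddGroup.eq]
  rw [AddSubgroup.mem_addSubgroupOf]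
  refine ⟨-⟨a, ha⟩, ?_⟩
  apply Subtype.ext
  show ((n • (-(⟨a, ha⟩ : ↥(FixedPoints.addSubgroup G B))) :
      ↥(FixedPoints.addSubgroup G B)) : B) = _
  rw [AddSubgroup.coe_nsmul, AddSubgroup.coe_neg, smul_neg, ← hdiff]
  simp only [AddSubgroup.coe_add, NegMemClass.coe_neg]
  abel

/-- **Weak Mordell–Weil, abstract form**: `n • A` has finite index in `A = B^G`, given
* a finite-index subgroup `A₁ ≤ A` (as a subgroup of `B`) all of whose elements are `n`-divisible
  in `B`;
* a finite set `T` of functions `G → B` containing, up to `n`-torsion coboundaries, the Kummer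
  cocycle `σ ↦ σ b - b` of every `b` with `n • b ∈ A`.

The conclusion is the hypothesis `H₁` of Mathlib's `AddCommGroup.fg_of_descent`. -/
theorem finiteIndex_range_nsmul (n : ℕ)
    (A₁ : AddSubgroup B)
    (hA₁fin : (A₁.addSubgroupOf (FixedPoints.addSubgroup G B)).FiniteIndex)
    (hA₁div : ∀ a ∈ A₁, a ∈ FixedPoints.addSubgroup G B → ∃ b : B, n • b = a)
    (T : Set (G → B)) (hT : T.Finite)
    (hkum : ∀ b : B, n • b ∈ FixedPoints.addSubgroup G B →
      ∃ t ∈ T, ∃ u : B, n • u = 0 ∧ ∀ σ : G, σ • b - b = t σ + (σ • u - u)) :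
    (nsmulAddMonoidHom (α := ↥(FixedPoints.addSubgroup G B)) n).range.FiniteIndex := by
  -- `A₁ ∩ A ≤ A ∩ nB`, so `A ∩ nB` has finite index in `A`
  have hle : A₁.addSubgroupOf (FixedPoints.addSubgroup G B) ≤ divSub G B n := by
    intro a ha
    exact hA₁div (a : B) (AddSubgroup.mem_addSubgroupOf.1 ha) a.2
  have hCfin : (divSub G B n).FiniteIndex := AddSubgroup.finiteIndex_of_le hle
  -- `(A ∩ nB)/nA` is finite
  have hq := finite_quotient_divSub n T hT hkum
  have hrel : ((nsmulAddMonoidHom (α := ↥(FixedPoints.addSubgroup G B)) n).range.addSubgroupOf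
      (divSub G B n)).FiniteIndex := AddSubgroup.finiteIndex_of_finite_quotient
  refine ⟨?_⟩
  rw [← AddSubgroup.relIndex_mul_index (range_nsmul_le_divSub (G := G) (B := B) n)]
  exact mul_ne_zero hrel.index_ne_zero hCfin.index_ne_zero

/-- **The descent step for `A = B^G`**: weak Mordell–Weil in the abstract form above plus a
height function with Northcott and the two crude inequalities gives finite generation — the
frozen S17 shape for `B = JZero N`. -/
theorem fg_fixedPoints_of_descent (n : ℕ)
    (A₁ : AddSubgroup B)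
    (hA₁fin : (A₁.addSubgroupOf (FixedPoints.addSubgroup G B)).FiniteIndex)
    (hA₁div : ∀ a ∈ A₁, a ∈ FixedPoints.addSubgroup G B → ∃ b : B, n • b = a)
    (T : Set (G → B)) (hT : T.Finite)
    (hkum : ∀ b : B, n • b ∈ FixedPoints.addSubgroup G B →
      ∃ t ∈ T, ∃ u : B, n • u = 0 ∧ ∀ σ : G, σ • b - b = t σ + (σ • u - u))
    (h : ↥(FixedPoints.addSubgroup G B) → ℝ) [Northcott h] {a b c₀ : ℝ}
    {c : ↥(FixedPoints.addSubgroup G B) → ℝ} (ha : 0 ≤ a) (hab : a < b)
    (H₂ : ∀ g x, h x ≤ a * h (g + x) + c g) (H₃ : ∀ x, b * h x - c₀ ≤ h (n • x)) :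
    AddGroup.FG ↥(FixedPoints.addSubgroup G B) :=
  AddCommGroup.fg_of_descent ha hab
    (finiteIndex_range_nsmul n A₁ hA₁fin hA₁div T hT hkum) H₂ H₃

end Fermat.Agent.GR.WeakMW.KummerAbs
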